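import Mathlib

set_option autoImplicit false

/-!
# S20, modular dictionary: packaging a function as a cusp form
-/

namespace Fermat.Agent.S20

open UpperHalfPlane ModularForm Filter
open scoped Manifold MatrixGroups Topology

/-- A holomorphic function which is slash-invariant under `Γ` and all of whose `SL(2, ℤ)`-slashes
vanish at `i∞` is a cusp form. -/
noncomputable def mkCuspForm (Γ : Subgroup SL(2, ℤ)) (k : ℤ) (F : ℍ → ℂ) (hF : MDiff F)
    (hinv : ∀ γ ∈ Γ, F ∣[k] γ = F) (hzero : ∀ γ : SL(2, ℤ), IsZeroAtImInfty (F ∣[k] γ)) :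
    CuspForm Γ k where
  toFun := F
  slash_action_eq' := by
    intro g hg
    obtain ⟨γ, hγ, rfl⟩ := Subgroup.mem_map.mp hg
    exact hinv γ hγ
  holo' := hF
  zero_at_cusps' := by
    intro c hc
    have hc' : IsCusp c 𝒮ℒ := hc.mono (Subgroup.map_le_range _ _)
    rw [OnePoint.isZeroAt_iff_forall_SL2Z hc']
    intro γ _
    exact hzero γ

@[simp]
theorem mkCuspForm_apply (Γ : Subgroup SL(2, ℤ)) (k : ℤ) (F : ℍ → ℂ) (hF : MDiff F)
    (hinv : ∀ γ ∈ Γ, F ∣[k] γ = F) (hzero : ∀ γ : SL(2, ℤ), IsZeroAtImInfty (F ∣[k] γ)) (τ : ℍ) :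
    mkCuspForm Γ k F hF hinv hzero τ = F τ := rfl

theorem coe_mkCuspForm (Γ : Subgroup SL(2, ℤ)) (k : ℤ) (F : ℍ → ℂ) (hF : MDiff F)
    (hinv : ∀ γ ∈ Γ, F ∣[k] γ = F) (hzero : ∀ γ : SL(2, ℤ), IsZeroAtImInfty (F ∣[k] γ)) :
    (⇑(mkCuspForm Γ k F hF hinv hzero) : ℍ → ℂ) = F := rfl

end Fermat.Agent.S20
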