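import Mathlib

set_option autoImplicit false

/-!
# S20, modular dictionary: order of a function at `i∞`

`HasOrderAtInfty h f k` says `f τ = q ^ k * u q` for `Im τ` large, where `q = exp (2πiτ/h)` and
`u` is continuous at `0` with `u 0 ≠ 0`.
-/

namespace Fermat.Agent.S20

open UpperHalfPlane Filter Function
open scoped Topology

local notation "𝕢" => Periodic.qParam

/-- `f` has order `k` at `i∞` with respect to the parameter `exp (2πiτ/h)`. -/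
def HasOrderAtInfty (h : ℝ) (f : ℍ → ℂ) (k : ℤ) : Prop :=
  ∃ u : ℂ → ℂ, ContinuousAt u 0 ∧ u 0 ≠ 0 ∧
    ∀ᶠ τ : ℍ in atImInfty, f τ = (𝕢 h τ) ^ k * u (𝕢 h τ)

theorem HasOrderAtInfty.mul {h : ℝ} {f g : ℍ → ℂ} {k l : ℤ} (hf : HasOrderAtInfty h f k)
    (hg : HasOrderAtInfty h g l) : HasOrderAtInfty h (f * g) (k + l) := by
  obtain ⟨u, hu, hu0, hfu⟩ := hf
  obtain ⟨v, hv, hv0, hgv⟩ := hg
  refine ⟨fun q => u q * v q, hu.mul hv, mul_ne_zero hu0 hv0, ?_⟩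
  filter_upwards [hfu, hgv] with τ h1 h2
  rw [Pi.mul_apply, h1, h2, zpow_add₀ (Periodic.qParam_ne_zero _)]
  ring

theorem HasOrderAtInfty.const (h : ℝ) {c : ℂ} (hc : c ≠ 0) :
    HasOrderAtInfty h (fun _ => c) 0 :=
  ⟨fun _ => c, continuousAt_const, hc, Eventually.of_forall fun τ => by simp⟩

theorem HasOrderAtInfty.congr {h : ℝ} {f g : ℍ → ℂ} {k : ℤ} (hf : HasOrderAtInfty h f k)
    (hfg : ∀ᶠ τ in atImInfty, f τ = g τ) : HasOrderAtInfty h g k := by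
  obtain ⟨u, hu, hu0, hfu⟩ := hf
  refine ⟨u, hu, hu0, ?_⟩
  filter_upwards [hfu, hfg] with τ h1 h2
  rw [← h2, h1]

/-- A function with an order at `i∞` is eventually nonzero. -/
theorem HasOrderAtInfty.eventually_ne_zero {h : ℝ} (hh : 0 < h) {f : ℍ → ℂ} {k : ℤ}
    (hf : HasOrderAtInfty h f k) : ∀ᶠ τ in atImInfty, f τ ≠ 0 := by
  obtain ⟨u, hu, hu0, hfu⟩ := hf
  have hq : Tendsto (fun τ : ℍ => 𝕢 h τ) atImInfty (𝓝 0) := qParam_tendsto_atImInfty hh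
  have hune : ∀ᶠ τ : ℍ in atImInfty, u (𝕢 h τ) ≠ 0 := hq.eventually (hu.eventually_ne hu0)
  filter_upwards [hfu, hune] with τ h1 h2
  rw [h1]
  exact mul_ne_zero (zpow_ne_zero _ (Periodic.qParam_ne_zero _)) h2

/-- **Vanishing at the cusp**: if `F * g = f` and the order of `f` at `i∞` exceeds that of `g`,
then `F` tends to `0` at `i∞`. -/
theorem isZeroAtImInfty_of_mul_eq {h : ℝ} (hh : 0 < h) {F f g : ℍ → ℂ} {k l : ℤ}
    (hf : HasOrderAtInfty h f k) (hg : HasOrderAtInfty h g l) (hFg : ∀ τ, F τ * g τ = f τ)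
    (hkl : l + 1 ≤ k) : IsZeroAtImInfty F := by
  obtain ⟨u, hu, hu0, hfu⟩ := hf
  obtain ⟨v, hv, hv0, hgv⟩ := hg
  have hq : Tendsto (fun τ : ℍ => 𝕢 h τ) atImInfty (𝓝 0) := qParam_tendsto_atImInfty hh
  have hvne : ∀ᶠ τ : ℍ in atImInfty, v (𝕢 h τ) ≠ 0 := hq.eventually (hv.eventually_ne hv0)
  obtain ⟨r, hr⟩ : ∃ r : ℕ, k - l = 1 + r := ⟨(k - l - 1).toNat, by omega⟩
  -- the model function
  set Φ : ℂ → ℂ := fun q => q * q ^ r * (u q / v q) with hΦ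
  have hΦc : ContinuousAt Φ 0 :=
    ((continuousAt_id.mul (continuousAt_id.pow r))).mul (hu.div hv hv0)
  have hΦ0 : Φ 0 = 0 := by simp [hΦ]
  have hlim : Tendsto (fun τ : ℍ => Φ (𝕢 h τ)) atImInfty (𝓝 0) := by
    have := hΦc.tendsto.comp hq
    rwa [hΦ0] at this
  rw [IsZeroAtImInfty, ZeroAtFilter]
  refine hlim.congr' ?_
  filter_upwards [hfu, hgv, hvne] with τ h1 h2 h3
  have hqne : 𝕢 h τ ≠ 0 := Periodic.qParam_ne_zero _
  have hgne : g τ ≠ 0 := by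
    rw [h2]; exact mul_ne_zero (zpow_ne_zero _ hqne) h3
  have hF : F τ = f τ / g τ := by rw [← hFg τ]; field_simp
  rw [hF, h1, h2]
  have hk : k = l + (1 + r) := by omega
  rw [hk, zpow_add₀ hqne, zpow_add₀ hqne, zpow_one, zpow_natCast]
  simp only [hΦ]
  have hl : (𝕢 h τ) ^ l ≠ 0 := zpow_ne_zero _ hqne
  field_simp

end Fermat.Agent.S20
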