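import Fermat.Agent.S24.JOrder
import Fermat.Agent.S24.JDict
import Fermat.Agent.S20.Dict.OrderInfty

set_option autoImplicit false

/-!
# S20, modular dictionary: the derivative of `j`

`jPrime = D jFun = -E₄² E₆ / Δ` is holomorphic, of weight two for `SL(2, ℤ)`, its order at a point
`τ₀` is one less than that of `j - j(τ₀)`, and it has a simple pole at `i∞` in `q = exp(2πiτ)`.
-/

namespace Fermat.Agent.S20

open UpperHalfPlane hiding I
open Complex Real Filter Topology Function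
open scoped Manifold MatrixGroups ModularForm
open ModularForm EisensteinSeries Derivative Fermat.Agent.S24

local notation "Δ" => ModularForm.discriminant
local notation "𝕢" => Periodic.qParam

/-- the (normalised) derivative of the `j`-function. -/
noncomputable def jPrime : ℍ → ℂ := D jFun

theorem jPrime_apply (τ : ℍ) : jPrime τ = -(E₄ τ ^ 2 * E₆ τ) / Δ τ := D_jFun τ

theorem jPrime_mdiff : MDiff jPrime := normalizedDerivOfComplex_mdifferentiable mdiff_jFun

theorem jPrime_slash (γ : SL(2, ℤ)) : jPrime ∣[(2 : ℤ)] γ = jPrime := by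
  have h0 : jFun ∣[(0 : ℤ)] γ = jFun := by
    ext τ
    rw [SL_slash_apply, jFun_smul]
    simp
  have h1 := normalizedDerivOfComplex_SL_slash (k := 0) mdiff_jFun (γ := γ)
  rw [h0] at h1
  unfold jPrime
  ext z
  have := congrFun h1 z
  simp only [Pi.sub_apply, Int.cast_zero, zero_mul, sub_zero, zero_add] at this
  exact this.symm

theorem analyticOrderAt_jPrime (τ : ℍ) :
    analyticOrderAt (jPrime ∘ ofComplex) (τ : ℂ) + 1
      = analyticOrderAt (fun z : ℂ => jFun (ofComplex z) - jFun τ) (τ : ℂ) := by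
  have ha := analyticAt_comp_ofComplex mdiff_jFun τ
  have h1 := ha.analyticOrderAt_deriv_add_one
  have h2 : (fun z : ℂ => (jFun ∘ ofComplex) z - (jFun ∘ ofComplex) (τ : ℂ))
      = fun z : ℂ => jFun (ofComplex z) - jFun τ := by
    ext z; simp [Function.comp_apply, ofComplex_apply]
  rw [h2] at h1
  rw [← h1]
  congr 1
  have hc : (2 * π * I : ℂ) ≠ 0 := by simp [Real.pi_ne_zero, I_ne_zero]
  have heq : deriv (jFun ∘ ofComplex) =ᶠ[𝓝 (τ : ℂ)]
      (fun _ : ℂ => (2 * π * I : ℂ)) * (jPrime ∘ ofComplex) := by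
    filter_upwards [isOpen_upperHalfPlaneSet.mem_nhds τ.im_pos] with z hz
    have := deriv_comp_ofComplex jFun ⟨z, hz⟩
    simp only [Pi.mul_apply, Function.comp_apply]
    rw [ofComplex_apply_of_im_pos hz]
    exact this
  rw [analyticOrderAt_congr heq, analyticOrderAt_mul analyticAt_const
    (analyticAt_comp_ofComplex jPrime_mdiff τ)]
  have h0 : analyticOrderAt (fun _ : ℂ => (2 * π * I : ℂ)) (τ : ℂ) = 0 := by
    rw [analyticOrderAt_eq_zero]
    right
    exact hc
  rw [h0, zero_add]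


/-! ### Behaviour at `i∞` -/

open ModularFormClass

/-- change of the parameter `exp (2πiτ)` to `exp (2πiτ/N)`. -/
theorem HasOrderAtInfty.of_one {N : ℕ} (hN : N ≠ 0) {f : ℍ → ℂ} {k : ℤ}
    (hf : HasOrderAtInfty 1 f k) : HasOrderAtInfty (N : ℝ) f (N * k) := by
  obtain ⟨u, hu, hu0, hfu⟩ := hf
  have hpow : ∀ τ : ℍ, (𝕢 (N : ℝ) τ) ^ N = 𝕢 1 τ := by
    intro τ
    unfold Periodic.qParam
    rw [← Complex.exp_nat_mul]
    congr 1
    have : (N : ℂ) ≠ 0 := by exact_mod_cast hN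
    push_cast
    field_simp
  refine ⟨fun q => u (q ^ N), ?_, ?_, ?_⟩
  · have h1 : ContinuousAt (fun q : ℂ => q ^ N) 0 := (continuous_pow N).continuousAt
    have h2 : ContinuousAt u ((fun q : ℂ => q ^ N) 0) := by
      simpa [zero_pow hN] using hu
    exact ContinuousAt.comp (f := fun q : ℂ => q ^ N) (g := u) h2 h1
  · simpa [zero_pow hN] using hu0
  · filter_upwards [hfu] with τ hτ
    rw [hτ]
    show 𝕢 1 τ ^ k * u (𝕢 1 τ) = 𝕢 (N : ℝ) τ ^ ((N : ℤ) * k) * u (𝕢 (N : ℝ) τ ^ N)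
    rw [hpow τ, zpow_mul, zpow_natCast, hpow τ]

theorem cuspFunction_E₄_zero : cuspFunction 1 E₄ 0 = 1 := by
  have h1 := E_qExpansion_coeff_zero (k := 4) (by norm_num) ⟨2, rfl⟩
  rw [qExpansion_coeff] at h1
  simpa using h1

theorem cuspFunction_E₆_zero : cuspFunction 1 E₆ 0 = 1 := by
  have h1 := E_qExpansion_coeff_zero (k := 6) (by norm_num) ⟨3, rfl⟩
  rw [qExpansion_coeff] at h1
  simpa using h1

theorem eulerProd_zero : eulerProd 0 = 1 := by
  unfold eulerProd
  simp

/-- `q * j'(q)` as a function of `q`. -/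
noncomputable def qjPrimeFun (q : ℂ) : ℂ :=
  -(cuspFunction 1 E₄ q ^ 2 * cuspFunction 1 E₆ q) / eulerProd q ^ 24

theorem qjPrimeFun_zero : qjPrimeFun 0 = -1 := by
  simp [qjPrimeFun, cuspFunction_E₄_zero, cuspFunction_E₆_zero, eulerProd_zero]

theorem continuousAt_qjPrimeFun : ContinuousAt qjPrimeFun 0 := by
  have h4 : ContinuousAt (cuspFunction 1 E₄) 0 :=
    (ModularFormClass.differentiableAt_cuspFunction E₄ one_pos one_mem_strictPeriods_SL
      (by simp)).continuousAt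
  have h6 : ContinuousAt (cuspFunction 1 E₆) 0 :=
    (ModularFormClass.differentiableAt_cuspFunction E₆ one_pos one_mem_strictPeriods_SL
      (by simp)).continuousAt
  have he : ContinuousAt eulerProd 0 := eulerProd_analyticAt_zero.continuousAt
  unfold qjPrimeFun
  refine (((h4.pow 2).mul h6).neg).div (he.pow 24) ?_
  rw [eulerProd_zero]
  simp

theorem qjPrimeFun_qParam (τ : ℍ) : qjPrimeFun (𝕢 1 τ) = 𝕢 1 τ * jPrime τ := by
  have hq : ‖𝕢 1 τ‖ < 1 := by exact_mod_cast norm_qParam_lt_one 1 τ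
  have hD := discriminant_eq_q_prod τ
  have hE4 : cuspFunction 1 E₄ (𝕢 1 τ) = E₄ τ :=
    SlashInvariantFormClass.eq_cuspFunction E₄ τ one_mem_strictPeriods_SL one_ne_zero
  have hE6 : cuspFunction 1 E₆ (𝕢 1 τ) = E₆ τ :=
    SlashInvariantFormClass.eq_cuspFunction E₆ τ one_mem_strictPeriods_SL one_ne_zero
  have hprod : ∏' n, (1 - eta_q n τ) ^ 24 = eulerProd (𝕢 1 τ) ^ 24 := by
    unfold eulerProd
    rw [← (multipliable_one_sub_pow hq).tprod_pow 24]
  have hne : eulerProd (𝕢 1 τ) ^ 24 ≠ 0 := pow_ne_zero _ (eulerProd_ne_zero hq)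
  have hq0 : (𝕢 1 τ : ℂ) ≠ 0 := Function.Periodic.qParam_ne_zero _
  rw [qjPrimeFun, hE4, hE6, jPrime_apply, hD, hprod]
  field_simp

theorem hasOrderAtInfty_jPrime_one : HasOrderAtInfty 1 jPrime (-1) := by
  refine ⟨qjPrimeFun, continuousAt_qjPrimeFun, by rw [qjPrimeFun_zero]; simp, ?_⟩
  refine Filter.Eventually.of_forall fun τ => ?_
  have hq0 : (𝕢 1 τ : ℂ) ≠ 0 := Function.Periodic.qParam_ne_zero _
  rw [qjPrimeFun_qParam, zpow_neg_one]
  field_simp

theorem hasOrderAtInfty_jPrime {N : ℕ} (hN : N ≠ 0) :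
    HasOrderAtInfty (N : ℝ) jPrime (-(N : ℤ)) := by
  have := hasOrderAtInfty_jPrime_one.of_one hN
  simpa using this

theorem qjFun_zero : qjFun 0 = 1 := by
  simp [qjFun, cuspFunction_E₄_zero, eulerProd_zero]

theorem hasOrderAtInfty_jFun_one : HasOrderAtInfty 1 jFun (-1) := by
  have hc : ContinuousAt qjFun 0 :=
    (differentiableOn_qjFun.differentiableAt (Metric.ball_mem_nhds 0 one_pos)).continuousAt
  refine ⟨qjFun, hc, by rw [qjFun_zero]; simp, ?_⟩
  refine Filter.Eventually.of_forall fun τ => ?_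
  have hq0 : (𝕢 1 τ : ℂ) ≠ 0 := Function.Periodic.qParam_ne_zero _
  rw [qjFun_qParam, zpow_neg_one]
  field_simp

theorem hasOrderAtInfty_jFun {N : ℕ} (hN : N ≠ 0) :
    HasOrderAtInfty (N : ℝ) jFun (-(N : ℤ)) := by
  have := hasOrderAtInfty_jFun_one.of_one hN
  simpa using this

end Fermat.Agent.S20
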