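import Mathlib

set_option autoImplicit false

/-!
# S20, modular dictionary: holomorphic quotients

If `G`, `D` are holomorphic on a connected open set, `D ≢ 0` and the order of vanishing of `D` is
at most that of `G` at every point, then `G / D` extends to a holomorphic function.
-/

namespace Fermat.Agent.S20

open Filter Topology

/-- local data of the quotient at a point. -/
theorem exists_local_quotient {U : Set ℂ} (hU : IsOpen U) (hUc : IsPreconnected U)
    {G D : ℂ → ℂ} (hG : DifferentiableOn ℂ G U) (hD : DifferentiableOn ℂ D U)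
    (hD0 : ∃ z ∈ U, D z ≠ 0)
    (hord : ∀ z ∈ U, analyticOrderAt D z ≤ analyticOrderAt G z) {z : ℂ} (hz : z ∈ U) :
    ∃ (n : ℕ) (d g : ℂ → ℂ), AnalyticAt ℂ d z ∧ d z ≠ 0 ∧ AnalyticAt ℂ g z ∧
      (∀ᶠ w in 𝓝 z, D w = (w - z) ^ n • d w) ∧ (∀ᶠ w in 𝓝 z, G w = (w - z) ^ n • g w) := by
  have hDan : AnalyticOnNhd ℂ D U := hD.analyticOnNhd hU
  have hGan : AnalyticOnNhd ℂ G U := hG.analyticOnNhd hU
  have hnz : ¬ ∀ᶠ w in 𝓝 z, D w = 0 := by
    intro h0
    obtain ⟨w, hw, hDw⟩ := hD0
    exact hDw (hDan.eqOn_zero_of_preconnected_of_eventuallyEq_zero hUc hz h0 hw)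
  obtain ⟨n, d, hd, hdz, hDd⟩ := (hDan z hz).exists_eventuallyEq_pow_smul_nonzero_iff.mpr hnz
  have hordD : analyticOrderAt D z = n :=
    (hDan z hz).analyticOrderAt_eq_natCast.mpr ⟨d, hd, hdz, hDd⟩
  have hle : (n : ℕ∞) ≤ analyticOrderAt G z := by rw [← hordD]; exact hord z hz
  obtain ⟨g, hg, hGg⟩ := (natCast_le_analyticOrderAt (hGan z hz)).mp hle
  exact ⟨n, d, g, hd, hdz, hg, hDd, hGg⟩

/-- The analytic core: holomorphic quotient under an order condition. -/
theorem exists_differentiableOn_mul_eq_of_order {U : Set ℂ} (hU : IsOpen U)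
    (hUc : IsPreconnected U) {G D : ℂ → ℂ} (hG : DifferentiableOn ℂ G U)
    (hD : DifferentiableOn ℂ D U) (hD0 : ∃ z ∈ U, D z ≠ 0)
    (hord : ∀ z ∈ U, analyticOrderAt D z ≤ analyticOrderAt G z) :
    ∃ F : ℂ → ℂ, DifferentiableOn ℂ F U ∧ ∀ z ∈ U, F z * D z = G z := by
  classical
  choose! n d g hd hdz hg hDd hGg using
    fun z (hz : z ∈ U) => exists_local_quotient hU hUc hG hD hD0 hord hz
  set F : ℂ → ℂ := fun z => g z z / d z z with hF
  -- values of `D`, `G` at a point in terms of the local data at that point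
  have hDself : ∀ z ∈ U, D z = (0 : ℂ) ^ n z * d z z := by
    intro z hz
    have := (hDd z hz).self_of_nhds
    simpa using this
  have hGself : ∀ z ∈ U, G z = (0 : ℂ) ^ n z * g z z := by
    intro z hz
    have := (hGg z hz).self_of_nhds
    simpa using this
  have hmul : ∀ z ∈ U, F z * D z = G z := by
    intro z hz
    rw [hDself z hz, hGself z hz, hF]
    have := hdz z hz
    field_simp
  have hFeq : ∀ z ∈ U, D z ≠ 0 → F z = G z / D z := by
    intro z hz hDz
    rw [← hmul z hz]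
    field_simp
  refine ⟨F, fun z hz => DifferentiableAt.differentiableWithinAt ?_, hmul⟩
  -- `F` agrees near `z` with the analytic function `g z / d z`
  have hq : AnalyticAt ℂ (fun w => g z w / d z w) z := (hg z hz).div (hd z hz) (hdz z hz)
  have hdne : ∀ᶠ w in 𝓝 z, d z w ≠ 0 := (hd z hz).continuousAt.eventually_ne (hdz z hz)
  have hUev : ∀ᶠ w in 𝓝 z, w ∈ U := hU.mem_nhds hz
  have heq : F =ᶠ[𝓝 z] fun w => g z w / d z w := by
    filter_upwards [hDd z hz, hGg z hz, hdne, hUev] with w hDw hGw hdw hwU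
    by_cases hwz : w = z
    · subst hwz
      rfl
    · have hpow : (w - z) ^ n z ≠ 0 := pow_ne_zero _ (sub_ne_zero.mpr hwz)
      have hDw0 : D w ≠ 0 := by
        rw [hDw, smul_eq_mul]
        exact mul_ne_zero hpow hdw
      rw [hFeq w hwU hDw0, hDw, hGw, smul_eq_mul, smul_eq_mul]
      field_simp
  exact (hq.differentiableAt).congr_of_eventuallyEq heq


open UpperHalfPlane
open scoped Manifold

/-- Holomorphic quotient on the upper half plane under an order condition. -/
theorem exists_mdiff_mul_eq_of_order {G D : ℍ → ℂ} (hG : MDiff G) (hD : MDiff D) (hD0 : D ≠ 0)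
    (hord : ∀ τ : ℍ, analyticOrderAt (D ∘ ofComplex) (τ : ℂ)
      ≤ analyticOrderAt (G ∘ ofComplex) (τ : ℂ)) :
    ∃ F : ℍ → ℂ, MDiff F ∧ ∀ τ, F τ * D τ = G τ := by
  have hUo : IsOpen {z : ℂ | 0 < z.im} := isOpen_upperHalfPlaneSet
  have hUc : IsPreconnected {z : ℂ | 0 < z.im} :=
    (Complex.isConnected_of_upperHalfPlane (r := 0) subset_rfl
      (fun z (hz : 0 < z.im) => (le_of_lt hz : 0 ≤ z.im))).isPreconnected
  have hD0' : ∃ z ∈ {z : ℂ | 0 < z.im}, (D ∘ ofComplex) z ≠ 0 := by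
    by_contra hcon
    push Not at hcon
    apply hD0
    ext τ
    have := hcon τ τ.im_pos
    simpa [Function.comp_apply, ofComplex_apply] using this
  obtain ⟨F0, hF0d, hF0m⟩ := exists_differentiableOn_mul_eq_of_order hUo hUc
    (UpperHalfPlane.mdifferentiable_iff.mp hG) (UpperHalfPlane.mdifferentiable_iff.mp hD) hD0'
    (fun z hz => by
      have := hord ⟨z, hz⟩
      simpa using this)
  refine ⟨fun τ => F0 τ, ?_, fun τ => ?_⟩
  · rw [UpperHalfPlane.mdifferentiable_iff]
    refine hF0d.congr fun z hz => ?_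
    simp [Function.comp_apply, ofComplex_apply_of_im_pos hz]
  · have := hF0m τ τ.im_pos
    simpa [Function.comp_apply, ofComplex_apply] using this

/-- Uniqueness of the holomorphic quotient. -/
theorem mdiff_quotient_unique {F₁ F₂ D : ℍ → ℂ} (hF₁ : MDiff F₁) (hF₂ : MDiff F₂) (hD : MDiff D)
    (hD0 : D ≠ 0) (h : ∀ τ, F₁ τ * D τ = F₂ τ * D τ) : F₁ = F₂ := by
  have h2 : (F₁ - F₂) * D = 0 := by
    ext τ
    simp only [Pi.mul_apply, Pi.sub_apply, Pi.zero_apply, sub_mul, h τ, sub_self]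
  rcases (UpperHalfPlane.mul_eq_zero_iff (hF₁.sub hF₂) hD).mp h2 with h3 | h3
  · exact sub_eq_zero.mp h3
  · exact absurd h3 hD0

end Fermat.Agent.S20
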