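import Mathlib
import Fermat.Prelude.Def_AlgebraicCurve_DivisorClassGroup
import Fermat.Agent.S20.Dict.Removable
import Fermat.Agent.S20.Dict.OrderInfty
import Fermat.Agent.S20.Dict.MkCusp

set_option autoImplicit false

/-!
# S20, modular dictionary: from `L(W)` to weight-two cusp forms (abstract form)

`F` is a field over `ℂ` generated by elements `gen d`, which are realised by holomorphic
`Γ₀(N)`-invariant functions `fn d` on the upper half plane.  Under a dictionary between the places of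
`F` and the local behaviour of these functions, every ℂ-subspace `L` of `F` whose elements `h`
satisfy `div h + W ≥ 0` embeds linearly into `S₂(Γ₀(N))`, by `h ↦ h · j'`.
-/

namespace Fermat.Agent.S20

open UpperHalfPlane ModularForm Filter AlgebraicCurve CongruenceSubgroup
open scoped Manifold MatrixGroups Topology

variable {F : Type*} [Field F] [Algebra ℂ F] {σ : Type*}

/-- The value of a polynomial at a family of functions on the upper half plane. -/
noncomputable def evalFn (fn : σ → ℍ → ℂ) (P : MvPolynomial σ ℂ) : ℍ → ℂ :=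
  fun τ => MvPolynomial.eval (fun d => fn d τ) P

section evalFn

variable (fn : σ → ℍ → ℂ)

@[simp] theorem evalFn_apply (P : MvPolynomial σ ℂ) (τ : ℍ) :
    evalFn fn P τ = MvPolynomial.eval (fun d => fn d τ) P := rfl

theorem evalFn_C (c : ℂ) : evalFn fn (MvPolynomial.C c) = fun _ => c := by
  ext τ; simp

theorem evalFn_X (d : σ) : evalFn fn (MvPolynomial.X d) = fn d := by
  ext τ; simp

theorem evalFn_add (P Q : MvPolynomial σ ℂ) : evalFn fn (P + Q) = evalFn fn P + evalFn fn Q := by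
  ext τ; simp

theorem evalFn_mul (P Q : MvPolynomial σ ℂ) : evalFn fn (P * Q) = evalFn fn P * evalFn fn Q := by
  ext τ; simp

theorem evalFn_sub (P Q : MvPolynomial σ ℂ) : evalFn fn (P - Q) = evalFn fn P - evalFn fn Q := by
  ext τ; simp

theorem evalFn_zero : evalFn fn (0 : MvPolynomial σ ℂ) = 0 := by
  ext τ; simp

variable {fn}

theorem evalFn_mdiff (hfn : ∀ d, MDiff (fn d)) (P : MvPolynomial σ ℂ) : MDiff (evalFn fn P) := by
  induction P using MvPolynomial.induction_on with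
  | C a => rw [evalFn_C]; exact mdifferentiable_const
  | add p q hp hq => rw [evalFn_add]; exact hp.add hq
  | mul_X p d hp => rw [evalFn_mul, evalFn_X]; exact hp.mul (hfn d)

theorem evalFn_smul_eq {Γ : Subgroup SL(2, ℤ)}
    (hinv : ∀ d, ∀ γ ∈ Γ, ∀ τ : ℍ, fn d (γ • τ) = fn d τ) (P : MvPolynomial σ ℂ) {γ : SL(2, ℤ)}
    (hγ : γ ∈ Γ) (τ : ℍ) : evalFn fn P (γ • τ) = evalFn fn P τ := by
  have h : (fun d => fn d (γ • τ)) = fun d => fn d τ := funext fun d => hinv d γ hγ τ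
  rw [evalFn_apply, evalFn_apply, h]

end evalFn


/-- The hypotheses of the dictionary. `w v` plays the role of `ord_v (dx)`. -/
structure DictHyp (N : ℕ) (gen : σ → F) (fn : σ → ℍ → ℂ) (jp : ℍ → ℂ) (w : Place ℂ F → ℤ) :
    Prop where
  fn_mdiff : ∀ d, MDiff (fn d)
  fn_inv : ∀ d, ∀ γ ∈ Gamma0 N, ∀ τ : ℍ, fn d (γ • τ) = fn d τ
  span : ∀ h : F, ∃ P Q : MvPolynomial σ ℂ, MvPolynomial.aeval gen Q ≠ 0 ∧
    h * MvPolynomial.aeval gen Q = MvPolynomial.aeval gen P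
  dict : ∀ P : MvPolynomial σ ℂ, MvPolynomial.aeval gen P = 0 ↔ evalFn fn P = 0
  jp_mdiff : MDiff jp
  jp_slash : ∀ γ : SL(2, ℤ), jp ∣[(2 : ℤ)] γ = jp
  fin : ∀ τ₀ : ℍ, ∃ (v : Place ℂ F) (m : ℤ) (kj : ℕ), 0 < m ∧
    analyticOrderAt (jp ∘ ofComplex) (τ₀ : ℂ) = kj ∧ (kj : ℤ) + 1 - m = m * w v ∧
    ∀ P : MvPolynomial σ ℂ, MvPolynomial.aeval gen P ≠ 0 →
      ∃ k : ℕ, analyticOrderAt (evalFn fn P ∘ ofComplex) (τ₀ : ℂ) = k ∧
        (k : ℤ) = m * v.ord (MvPolynomial.aeval gen P)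
  inf : ∀ a : SL(2, ℤ), ∃ (v : Place ℂ F) (m kj : ℤ), 0 < m ∧
    HasOrderAtInfty (N : ℝ) jp kj ∧ kj - m = m * w v ∧
    ∀ P : MvPolynomial σ ℂ, MvPolynomial.aeval gen P ≠ 0 →
      HasOrderAtInfty (N : ℝ) (fun τ => evalFn fn P (a • τ))
        (m * v.ord (MvPolynomial.aeval gen P))

section Quot

variable (gen : σ → F) (fn : σ → ℍ → ℂ) (jp : ℍ → ℂ)

/-- `Φ` is a holomorphic realisation of `h · j'`. -/
def IsQuot (h : F) (Φ : ℍ → ℂ) : Prop :=
  MDiff Φ ∧ ∃ P Q : MvPolynomial σ ℂ, MvPolynomial.aeval gen Q ≠ 0 ∧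
    h * MvPolynomial.aeval gen Q = MvPolynomial.aeval gen P ∧
    ∀ τ, Φ τ * evalFn fn Q τ = evalFn fn P τ * jp τ

variable {gen fn jp} {N : ℕ} {w : Place ℂ F → ℤ}

theorem DictHyp.evalFn_ne_zero (H : DictHyp N gen fn jp w) {Q : MvPolynomial σ ℂ}
    (hQ : MvPolynomial.aeval gen Q ≠ 0) : evalFn fn Q ≠ 0 :=
  fun h0 => hQ ((H.dict Q).mpr h0)

theorem DictHyp.jp_ne_zero (H : DictHyp N gen fn jp w) : jp ≠ 0 := by
  intro h0
  obtain ⟨v, m, kj, -, hkj, -, -⟩ := H.fin UpperHalfPlane.I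
  have : analyticOrderAt (jp ∘ ofComplex) ((UpperHalfPlane.I : ℍ) : ℂ) = ⊤ := by
    rw [analyticOrderAt_eq_top]
    refine Filter.Eventually.of_forall fun z => ?_
    simp [h0]
  rw [this] at hkj
  exact ENat.top_ne_natCast _ hkj

theorem IsQuot.unique (H : DictHyp N gen fn jp w) {h : F} {Φ Φ' : ℍ → ℂ}
    (h1 : IsQuot gen fn jp h Φ) (h2 : IsQuot gen fn jp h Φ') : Φ = Φ' := by
  obtain ⟨hΦ, P, Q, hQ, hPQ, hrel⟩ := h1
  obtain ⟨hΦ', P', Q', hQ', hPQ', hrel'⟩ := h2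
  have hD : MDiff (evalFn fn Q * evalFn fn Q') :=
    (evalFn_mdiff H.fn_mdiff Q).mul (evalFn_mdiff H.fn_mdiff Q')
  have hD0 : evalFn fn Q * evalFn fn Q' ≠ 0 := by
    intro h0
    rcases (UpperHalfPlane.mul_eq_zero_iff (evalFn_mdiff H.fn_mdiff Q)
      (evalFn_mdiff H.fn_mdiff Q')).mp h0 with h3 | h3
    · exact H.evalFn_ne_zero hQ h3
    · exact H.evalFn_ne_zero hQ' h3
  -- the algebraic identity `P * Q' = P' * Q` transfers to functions
  have halg : MvPolynomial.aeval gen (P * Q' - P' * Q) = 0 := by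
    rw [map_sub, map_mul, map_mul, ← hPQ, ← hPQ']
    ring
  have hfun : evalFn fn P * evalFn fn Q' = evalFn fn P' * evalFn fn Q := by
    have := (H.dict _).mp halg
    rw [evalFn_sub, evalFn_mul, evalFn_mul] at this
    exact sub_eq_zero.mp this
  refine mdiff_quotient_unique hΦ hΦ' hD hD0 fun τ => ?_
  have e1 := hrel τ
  have e2 := hrel' τ
  have e3 := congrFun hfun τ
  simp only [Pi.mul_apply] at e3 ⊢
  linear_combination evalFn fn Q' τ * e1 - evalFn fn Q τ * e2 + jp τ * e3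

theorem IsQuot.zero : IsQuot gen fn jp (0 : F) 0 := by
  refine ⟨mdifferentiable_const, 0, 1, ?_, ?_, fun τ => ?_⟩
  · simp
  · simp
  · simp

theorem IsQuot.add {h h' : F} {Φ Φ' : ℍ → ℂ}
    (h1 : IsQuot gen fn jp h Φ) (h2 : IsQuot gen fn jp h' Φ') :
    IsQuot gen fn jp (h + h') (Φ + Φ') := by
  obtain ⟨hΦ, P, Q, hQ, hPQ, hrel⟩ := h1
  obtain ⟨hΦ', P', Q', hQ', hPQ', hrel'⟩ := h2
  refine ⟨hΦ.add hΦ', P * Q' + P' * Q, Q * Q', ?_, ?_, fun τ => ?_⟩
  · rw [map_mul]; exact mul_ne_zero hQ hQ'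
  · rw [map_mul, map_add, map_mul, map_mul, ← hPQ, ← hPQ']
    ring
  · have e1 := hrel τ
    have e2 := hrel' τ
    simp only [evalFn_apply, map_add, map_mul, Pi.add_apply] at e1 e2 ⊢
    linear_combination (MvPolynomial.eval (fun d => fn d τ) Q') * e1
      + (MvPolynomial.eval (fun d => fn d τ) Q) * e2

theorem IsQuot.smul (c : ℂ) {h : F} {Φ : ℍ → ℂ}
    (h1 : IsQuot gen fn jp h Φ) : IsQuot gen fn jp (c • h) (c • Φ) := by
  obtain ⟨hΦ, P, Q, hQ, hPQ, hrel⟩ := h1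
  refine ⟨hΦ.const_smul c, MvPolynomial.C c * P, Q, hQ, ?_, fun τ => ?_⟩
  · rw [map_mul, MvPolynomial.aeval_C, ← hPQ, Algebra.smul_def]
    ring
  · have e1 := hrel τ
    simp only [evalFn_apply, map_mul, MvPolynomial.eval_C, Pi.smul_apply, smul_eq_mul] at e1 ⊢
    linear_combination c * e1

theorem IsQuot.eq_zero (H : DictHyp N gen fn jp w) {h : F} (h1 : IsQuot gen fn jp h 0) :
    h = 0 := by
  obtain ⟨-, P, Q, hQ, hPQ, hrel⟩ := h1
  have h0 : evalFn fn P * jp = 0 := by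
    ext τ
    have := hrel τ
    simp only [Pi.zero_apply, zero_mul] at this
    simpa using this.symm
  rcases (UpperHalfPlane.mul_eq_zero_iff (evalFn_mdiff H.fn_mdiff P) H.jp_mdiff).mp h0 with h3 | h3
  · have hP : MvPolynomial.aeval gen P = 0 := (H.dict P).mpr h3
    rw [hP] at hPQ
    rcases mul_eq_zero.mp hPQ with h4 | h4
    · exact h4
    · exact absurd h4 hQ
  · exact absurd h3 H.jp_ne_zero

theorem analyticAt_comp_ofComplex' {f : ℍ → ℂ} (hf : MDiff f) (τ : ℍ) :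
    AnalyticAt ℂ (f ∘ ofComplex) (τ : ℂ) := by
  have hd : DifferentiableOn ℂ (f ∘ ofComplex) {z : ℂ | 0 < z.im} :=
    UpperHalfPlane.mdifferentiable_iff.mp hf
  exact hd.analyticAt (isOpen_upperHalfPlaneSet.mem_nhds τ.im_pos)

/-- the relation defining `IsQuot` after slashing with an arbitrary element of `SL(2, ℤ)`. -/
theorem slash_rel (H : DictHyp N gen fn jp w) {Φ : ℍ → ℂ} {P Q : MvPolynomial σ ℂ}
    (hrel : ∀ τ, Φ τ * evalFn fn Q τ = evalFn fn P τ * jp τ) (a : SL(2, ℤ)) (τ : ℍ) :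
    (Φ ∣[(2 : ℤ)] a) τ * evalFn fn Q (a • τ) = evalFn fn P (a • τ) * jp τ := by
  have e1 := hrel (a • τ)
  have e2 : (jp ∣[(2 : ℤ)] a) τ = jp τ := by rw [H.jp_slash a]
  rw [SL_slash_apply] at e2 ⊢
  rw [← e2]
  linear_combination (denom (Matrix.SpecialLinearGroup.toGL
    ((Matrix.SpecialLinearGroup.map (Int.castRingHom ℝ)) a)) ↑τ ^ (-(2 : ℤ))) * e1

theorem IsQuot.slash (H : DictHyp N gen fn jp w) {h : F} {Φ : ℍ → ℂ}
    (h1 : IsQuot gen fn jp h Φ) {γ : SL(2, ℤ)} (hγ : γ ∈ Gamma0 N) :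
    IsQuot gen fn jp h (Φ ∣[(2 : ℤ)] γ) := by
  obtain ⟨hΦ, P, Q, hQ, hPQ, hrel⟩ := h1
  refine ⟨?_, P, Q, hQ, hPQ, fun τ => ?_⟩
  · rw [SL_slash]
    exact hΦ.slash 2 _
  · have := slash_rel H hrel γ τ
    rwa [evalFn_smul_eq H.fn_inv Q hγ, evalFn_smul_eq H.fn_inv P hγ] at this

theorem IsQuot.slash_eq (H : DictHyp N gen fn jp w) {h : F} {Φ : ℍ → ℂ}
    (h1 : IsQuot gen fn jp h Φ) {γ : SL(2, ℤ)} (hγ : γ ∈ Gamma0 N) :
    Φ ∣[(2 : ℤ)] γ = Φ :=
  IsQuot.unique H (h1.slash H hγ) h1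

/-- Existence of the holomorphic realisation under the divisor condition. -/
theorem exists_isQuot (H : DictHyp N gen fn jp w) {h : F}
    (hh : h ≠ 0 → ∀ v : Place ℂ F, 0 ≤ v.ord h + w v) : ∃ Φ, IsQuot gen fn jp h Φ := by
  rcases eq_or_ne h 0 with rfl | hne
  · exact ⟨0, IsQuot.zero⟩
  obtain ⟨P, Q, hQ, hPQ⟩ := H.span h
  have hP : MvPolynomial.aeval gen P ≠ 0 := by rw [← hPQ]; exact mul_ne_zero hne hQ
  have hGm : MDiff (evalFn fn P * jp) := (evalFn_mdiff H.fn_mdiff P).mul H.jp_mdiff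
  have hDm : MDiff (evalFn fn Q) := evalFn_mdiff H.fn_mdiff Q
  obtain ⟨Φ, hΦ, hrel⟩ := exists_mdiff_mul_eq_of_order hGm hDm (H.evalFn_ne_zero hQ) (by
    intro τ₀
    obtain ⟨v, m, kj, hm, hkj, hw, hord⟩ := H.fin τ₀
    obtain ⟨kP, hkP, hkP'⟩ := hord P hP
    obtain ⟨kQ, hkQ, hkQ'⟩ := hord Q hQ
    have hmul : ((evalFn fn P * jp) ∘ ofComplex) = (evalFn fn P ∘ ofComplex) * (jp ∘ ofComplex) :=
      rfl
    rw [hmul, analyticOrderAt_mul (analyticAt_comp_ofComplex' (evalFn_mdiff H.fn_mdiff P) τ₀)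
      (analyticAt_comp_ofComplex' H.jp_mdiff τ₀), hkP, hkj, hkQ]
    have hv : v.ord h = v.ord (MvPolynomial.aeval gen P) - v.ord (MvPolynomial.aeval gen Q) := by
      rw [← hPQ, Place.ord_mul v hne hQ]; ring
    have h0 := hh hne v
    have h1 : 0 ≤ m * (v.ord h + w v) := mul_nonneg hm.le h0
    have h2 : (kQ : ℤ) ≤ kP + kj := by
      rw [hkP', hkQ']
      nlinarith
    exact_mod_cast h2)
  exact ⟨Φ, hΦ, P, Q, hQ, hPQ, hrel⟩

/-- Vanishing at all cusps. -/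
theorem IsQuot.isZeroAtImInfty [NeZero N] (H : DictHyp N gen fn jp w) {h : F} {Φ : ℍ → ℂ}
    (h1 : IsQuot gen fn jp h Φ) (hh : h ≠ 0 → ∀ v : Place ℂ F, 0 ≤ v.ord h + w v)
    (a : SL(2, ℤ)) : IsZeroAtImInfty (Φ ∣[(2 : ℤ)] a) := by
  rcases eq_or_ne h 0 with rfl | hne
  · have : Φ = 0 := IsQuot.unique H h1 IsQuot.zero
    rw [this]
    have h0 : ((0 : ℍ → ℂ) ∣[(2 : ℤ)] a) = 0 := by
      ext τ
      rw [SL_slash_apply]
      simp
    rw [h0]
    exact (Filter.zero_zeroAtFilter atImInfty : ZeroAtFilter atImInfty (0 : ℍ → ℂ))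
  obtain ⟨hΦ, P, Q, hQ, hPQ, hrel⟩ := h1
  have hP : MvPolynomial.aeval gen P ≠ 0 := by rw [← hPQ]; exact mul_ne_zero hne hQ
  obtain ⟨v, m, kj, hm, hjp, hw, hord⟩ := H.inf a
  have hfP := (hord P hP).mul hjp
  have hgQ := hord Q hQ
  have hN : (0 : ℝ) < (N : ℝ) := by exact_mod_cast Nat.pos_of_ne_zero (NeZero.ne N)
  refine isZeroAtImInfty_of_mul_eq hN hfP hgQ (fun τ => slash_rel H hrel a τ) ?_
  have hv : v.ord h = v.ord (MvPolynomial.aeval gen P) - v.ord (MvPolynomial.aeval gen Q) := by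
    rw [← hPQ, Place.ord_mul v hne hQ]; ring
  have h0 := hh hne v
  have h1 : 0 ≤ m * (v.ord h + w v) := mul_nonneg hm.le h0
  nlinarith

/-! ### The linear map -/

section LinearMap

variable [NeZero N] (H : DictHyp N gen fn jp w) (L : Submodule ℂ F)
  (hL : ∀ h ∈ L, h ≠ 0 → ∀ v : Place ℂ F, 0 ≤ v.ord h + w v)

/-- the holomorphic function attached to an element of `L`. -/
noncomputable def dictFun (h : L) : ℍ → ℂ :=
  Classical.choose (exists_isQuot H (h := (h : F)) (hL h.1 h.2))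

omit [NeZero N] in
theorem dictFun_isQuot (h : L) : IsQuot gen fn jp (h : F) (dictFun H L hL h) :=
  Classical.choose_spec (exists_isQuot H (h := (h : F)) (hL h.1 h.2))

/-- the cusp form attached to an element of `L`. -/
noncomputable def dictCusp (h : L) : CuspForm (Gamma0 N) 2 :=
  mkCuspForm (Gamma0 N) 2 (dictFun H L hL h) (dictFun_isQuot H L hL h).1
    (fun _ hγ => (dictFun_isQuot H L hL h).slash_eq H hγ)
    (fun a => (dictFun_isQuot H L hL h).isZeroAtImInfty H (hL h.1 h.2) a)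

theorem coe_dictCusp (h : L) : (⇑(dictCusp H L hL h) : ℍ → ℂ) = dictFun H L hL h := rfl

/-- **The dictionary map** `L → S₂(Γ₀(N))`, `h ↦ h · j'`. -/
noncomputable def dictMap : L →ₗ[ℂ] CuspForm (Gamma0 N) 2 where
  toFun := dictCusp H L hL
  map_add' h h' := by
    apply DFunLike.coe_injective
    rw [FunLike.coe_add, coe_dictCusp, coe_dictCusp, coe_dictCusp]
    exact IsQuot.unique H (dictFun_isQuot H L hL (h + h'))
      ((dictFun_isQuot H L hL h).add (dictFun_isQuot H L hL h'))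
  map_smul' c h := by
    apply DFunLike.coe_injective
    rw [RingHom.id_apply, FunLike.coe_smul, coe_dictCusp, coe_dictCusp]
    exact IsQuot.unique H (dictFun_isQuot H L hL (c • h))
      ((dictFun_isQuot H L hL h).smul c)

theorem dictMap_injective : Function.Injective (dictMap H L hL) := by
  rw [← LinearMap.ker_eq_bot, LinearMap.ker_eq_bot']
  intro h hh
  have h0 : dictFun H L hL h = 0 := by
    have := congrArg (fun f : CuspForm (Gamma0 N) 2 => (⇑f : ℍ → ℂ)) hh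
    simpa [dictMap, coe_dictCusp] using this
  have hq := dictFun_isQuot H L hL h
  rw [h0] at hq
  exact Subtype.ext (IsQuot.eq_zero H hq)

/-- **Main theorem of the dictionary (abstract form).** -/
theorem exists_injective_linearMap_cuspForm (H : DictHyp N gen fn jp w) (L : Submodule ℂ F)
    (hL : ∀ h ∈ L, h ≠ 0 → ∀ v : Place ℂ F, 0 ≤ v.ord h + w v) :
    ∃ Ψ : L →ₗ[ℂ] CuspForm (Gamma0 N) 2, Function.Injective Ψ :=
  ⟨dictMap H L hL, dictMap_injective H L hL⟩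

end LinearMap

end Quot

end Fermat.Agent.S20
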