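/-
S20, modular dictionary, field `fin` of `DictHyp` (owner helper15): the local behaviour at a point
`τ₀ ∈ ℍ` of the functions `P(J_d)` is governed by a place of `F_ℂ = ℂ(j(q^d) : d ∣ N)`.
-/
import Mathlib
import Fermat.Agent.S20.Dict.Main
import Fermat.Agent.S20.Dict.Jprime
import Fermat.Agent.S20.RRDefs
import Fermat.Agent.S24.Real.EmbFinite
import Fermat.Agent.S24.Real.Degree
import Fermat.Agent.S24.LocalLemma
import Fermat.Agent.S24.FF.DiffOrdFF

set_option autoImplicit false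

namespace Fermat.Agent.S20

open UpperHalfPlane ModularForm Filter AlgebraicCurve CongruenceSubgroup ModularCurve
open Fermat.Agent.S24 Fermat.Agent.S24.FF
open scoped Manifold MatrixGroups Topology

noncomputable section

/-- the order of a nonzero power series viewed as a Laurent series. -/
theorem finField_order_ofPowerSeries {p : PowerSeries ℂ} {k : ℕ} (h : p.order = (k : ℕ∞)) :
    (HahnSeries.ofPowerSeries ℤ ℂ p).order = (k : ℤ) := by
  obtain ⟨hk, hlt⟩ := PowerSeries.order_eq_nat.mp h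
  have hcoeff : ∀ n : ℕ, (HahnSeries.ofPowerSeries ℤ ℂ p).coeff (n : ℤ) = PowerSeries.coeff n p :=
    fun n => HahnSeries.ofPowerSeries_apply_coeff p n
  have hne : HahnSeries.ofPowerSeries ℤ ℂ p ≠ 0 := by
    intro h0
    have := hcoeff k
    rw [h0, HahnSeries.coeff_zero] at this
    exact hk this.symm
  apply le_antisymm
  · exact HahnSeries.order_le_of_coeff_ne_zero (by rw [hcoeff]; exact hk)
  · rw [HahnSeries.le_order_iff_forall hne]
    intro j hj
    rcases lt_or_ge j 0 with hneg | hpos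
    · exact ModularCurve.ofPowerSeries_coeff_of_neg p hneg
    · obtain ⟨m, rfl⟩ := Int.eq_ofNat_of_zero_le hpos
      rw [hcoeff]
      exact hlt m (by exact_mod_cast hj)

/-- the order of the Taylor–Laurent series of a nonzero holomorphic function. -/
theorem finField_order_taylorL (τ₀ : ℍ) {f : ℍ → ℂ} (hf : MDiff f) {k : ℕ}
    (hk : analyticOrderAt (f ∘ ofComplex) (τ₀ : ℂ) = (k : ℕ∞)) :
    (taylorL τ₀ f).order = (k : ℤ) := by
  apply finField_order_ofPowerSeries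
  rw [order_taylorAt τ₀ hf, hk]

section Generic

variable {F : Type*} [Field F] [Algebra ℂ F] {σ : Type*}

/-- the expansion of a polynomial in the generators is the Taylor series of the corresponding
function. -/
theorem finField_emb_aeval (τ₀ : ℍ) (φ : F →ₐ[ℂ] LaurentSeries ℂ) (gen : σ → F)
    (fn : σ → ℍ → ℂ) (hfn : ∀ d, MDiff (fn d)) (hgen : ∀ d, φ (gen d) = taylorL τ₀ (fn d))
    (P : MvPolynomial σ ℂ) :
    φ (MvPolynomial.aeval gen P) = taylorL τ₀ (evalFn fn P) := by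
  induction P using MvPolynomial.induction_on with
  | C a =>
    rw [MvPolynomial.aeval_C, AlgHom.commutes, evalFn_C, taylorL_const]
  | add p q hp hq =>
    rw [map_add, map_add, hp, hq, evalFn_add,
      taylorL_add τ₀ (evalFn_mdiff hfn p) (evalFn_mdiff hfn q)]
  | mul_X p d hp =>
    rw [map_mul, map_mul, hp, MvPolynomial.aeval_X, evalFn_mul, evalFn_X,
      taylorL_mul τ₀ (evalFn_mdiff hfn p) (hfn d), hgen]

/-- **Field `fin` of the dictionary, generic form**: an embedding `φ` of `F` into `ℂ((w))` which is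
the Taylor expansion at `τ₀` on generators induces a place `v` of `F` governing the orders of
vanishing at `τ₀`. -/
theorem finField_generic (hF : IsFF1 ℂ F) (τ₀ : ℍ) (φ : F →ₐ[ℂ] LaurentSeries ℂ) (gen : σ → F)
    (fn : σ → ℍ → ℂ) (hfn : ∀ d, MDiff (fn d)) (hgen : ∀ d, φ (gen d) = taylorL τ₀ (fn d))
    (x : F) (hxt : Transcendental ℂ x) (hx : φ x = taylorL τ₀ jFun) :
    ∃ (v : Place ℂ F) (m : ℤ) (kj : ℕ), 0 < m ∧
      analyticOrderAt (jPrime ∘ ofComplex) (τ₀ : ℂ) = kj ∧ (kj : ℤ) + 1 - m = m * Wdx ℂ x v ∧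
      ∀ P : MvPolynomial σ ℂ, MvPolynomial.aeval gen P ≠ 0 →
        ∃ k : ℕ, analyticOrderAt (evalFn fn P ∘ ofComplex) (τ₀ : ℂ) = k ∧
          (k : ℤ) = m * v.ord (MvPolynomial.aeval gen P) := by
  have hφinj : Function.Injective φ := φ.toRingHom.injective
  -- orders of nonzero elements in the image
  have hord : ∀ {f : F} {g : ℍ → ℂ}, MDiff g → f ≠ 0 → φ f = taylorL τ₀ g →
      ∃ k : ℕ, analyticOrderAt (g ∘ ofComplex) (τ₀ : ℂ) = k ∧ (φ f).order = (k : ℤ) := by
    intro f g hg hf hfg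
    have hne : taylorAt τ₀ g ≠ 0 := by
      intro h0
      apply hf
      apply hφinj
      rw [hfg, map_zero, taylorL, h0, map_zero]
    obtain ⟨k, hk⟩ : ∃ k : ℕ, (taylorAt τ₀ g).order = (k : ℕ∞) := by
      have := (PowerSeries.order_finite_iff_ne_zero).mpr hne
      exact ⟨(taylorAt τ₀ g).order.toNat, (ENat.natCast_toNat (ne_of_lt this)).symm⟩
    have hk' : analyticOrderAt (g ∘ ofComplex) (τ₀ : ℂ) = k := by
      rw [← order_taylorAt τ₀ hg, hk]
    exact ⟨k, hk', by rw [hfg]; exact finField_order_taylorL τ₀ hg hk'⟩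
  -- the local parameter `y = x - j(τ₀)`
  set c : ℂ := jFun τ₀ with hc
  set y : F := x - algebraMap ℂ F c with hy
  have hy0 : y ≠ 0 := by
    intro h0
    apply hxt
    have : x = algebraMap ℂ F c := sub_eq_zero.mp h0
    rw [this]
    exact isAlgebraic_algebraMap c
  have hgy : MDiff (jFun + fun _ : ℍ => -c) := mdiff_jFun.add mdifferentiable_const
  have hφy : φ y = taylorL τ₀ (jFun + fun _ : ℍ => -c) := by
    rw [hy, map_sub, hx, AlgHom.commutes, taylorL_add τ₀ mdiff_jFun mdifferentiable_const,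
      taylorL_const, map_neg, sub_eq_add_neg]
  obtain ⟨K, hK, hKord⟩ := hord hgy hy0 hφy
  -- `K = kj + 1`
  have hfun : ((jFun + fun _ : ℍ => -c) ∘ ofComplex) = fun z : ℂ => jFun (ofComplex z) - jFun τ₀ := by
    funext z
    simp [hc, sub_eq_add_neg]
  have hjp := analyticOrderAt_jPrime τ₀
  rw [← hfun, hK] at hjp
  obtain ⟨kj, hkj⟩ : ∃ kj : ℕ, analyticOrderAt (jPrime ∘ ofComplex) (τ₀ : ℂ) = kj := by
    have hne : analyticOrderAt (jPrime ∘ ofComplex) (τ₀ : ℂ) ≠ ⊤ := by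
      intro h
      rw [h, top_add] at hjp
      exact ENat.top_ne_natCast K hjp
    exact ⟨(analyticOrderAt (jPrime ∘ ofComplex) (τ₀ : ℂ)).toNat, (ENat.natCast_toNat hne).symm⟩
  have hKkj : K = kj + 1 := by
    rw [hkj] at hjp
    exact_mod_cast hjp.symm
  -- the place
  have hnt : ∃ f : F, f ≠ 0 ∧ (φ f).order ≠ 0 := ⟨y, hy0, by rw [hKord, hKkj]; positivity⟩
  obtain ⟨v, m, hm, hv⟩ := exists_place_of_embedding hF φ hnt
  have hvy : ((kj : ℤ) + 1) = (m : ℤ) * v.ord y := by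
    rw [← hv y hy0, hKord, hKkj]
    push_cast
    ring
  have hvy0 : v.ord (x - algebraMap ℂ F c) ≠ 0 := by
    intro h0
    have h1 : v.ord y = 0 := h0
    rw [h1, mul_zero] at hvy
    omega
  refine ⟨v, (m : ℤ), kj, by exact_mod_cast hm, hkj, ?_, ?_⟩
  · rw [Wdx, ordDifferential_D_sub_const hF v c hvy0, mul_sub, mul_one, hvy]
  · intro P hP
    obtain ⟨k, hk, hkord⟩ := hord (evalFn_mdiff hfn P) hP (finField_emb_aeval τ₀ φ gen fn hfn hgen P)
    exact ⟨k, hk, by rw [← hkord, hv _ hP]⟩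

end Generic

section Instance

variable (N : ℕ) [NeZero N]

theorem finField_isFF1_FL : IsFF1 ℂ (FL ℂ N) :=
  ⟨xGen ℂ N, xGen_transcendental ℂ N, finiteDimensional_over_xGen ℂ N (RingHom.id ℂ)⟩

/-- The Taylor expansion embedding at `τ₀` as a `ℂ`-algebra hom. -/
def embFinAlg (τ₀ : ℍ) : FL ℂ N →ₐ[ℂ] LaurentSeries ℂ :=
  { embFinite ℂ N (RingHom.id ℂ) τ₀ 1 with
    commutes' := fun c => by
      show embFinite ℂ N (RingHom.id ℂ) τ₀ 1 (algebraMap ℂ (FL ℂ N) c) = _
      rw [embFinite_algebraMap, algebraMap_laurentSeries_eq_single, HahnSeries.C_apply]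
      rfl }

theorem embFinAlg_apply (τ₀ : ℍ) (f : FL ℂ N) :
    embFinAlg N τ₀ f = embFinite ℂ N (RingHom.id ℂ) τ₀ 1 f := rfl

theorem embFinAlg_gen (τ₀ : ℍ) (d : Gen N) :
    embFinAlg N τ₀ (genFL ℂ N d) = taylorL τ₀ (Jd d.1) := by
  have h := embFinite_gen ℂ N (RingHom.id ℂ) τ₀ 1 d
  have h2 : (fun τ : ℍ => Jd d.1 ((1 : SL(2, ℤ))⁻¹ • τ)) = Jd d.1 := by
    funext τ
    simp
  rw [h2] at h
  exact h

theorem embFinAlg_xGen (τ₀ : ℍ) : embFinAlg N τ₀ (xGen ℂ N) = taylorL τ₀ jFun :=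
  embFinite_xGen ℂ N (RingHom.id ℂ) τ₀ 1

/-- **Field `fin` of `DictHyp`** for `F_ℂ`, the generators `j(q^d)`, the functions `J_d`,
`jPrime` and `W = div(dx)`. -/
theorem dictHyp_fin (τ₀ : ℍ) :
    ∃ (v : Place ℂ (FL ℂ N)) (m : ℤ) (kj : ℕ), 0 < m ∧
      analyticOrderAt (jPrime ∘ ofComplex) (τ₀ : ℂ) = kj ∧
      (kj : ℤ) + 1 - m = m * Wdx ℂ (xGen ℂ N) v ∧
      ∀ P : MvPolynomial (Gen N) ℂ, MvPolynomial.aeval (genFL ℂ N) P ≠ 0 →
        ∃ k : ℕ, analyticOrderAt (evalFn (fun d : Gen N => Jd d.1) P ∘ ofComplex) (τ₀ : ℂ) = k ∧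
          (k : ℤ) = m * v.ord (MvPolynomial.aeval (genFL ℂ N) P) := by
  exact finField_generic (finField_isFF1_FL N) τ₀ (embFinAlg N τ₀) (genFL ℂ N) (fun d : Gen N => Jd d.1)
    (fun d => Jd_mdiff d.1) (embFinAlg_gen N τ₀) (xGen ℂ N) (xGen_transcendental ℂ N)
    (embFinAlg_xGen N τ₀)

end Instance

end

end Fermat.Agent.S20
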