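/-
S20 / [C3] modular dictionary, chunk (BR) (helper27): bridge between the Laurent expansion at `i∞`
of layer (R) (`IsMeroAtInfty`, `laurentInfty`) and `HasOrderAtInfty`, plus uniqueness of the
order at `i∞`.
-/
import Mathlib
import Fermat.Agent.S20.Dict.OrderInfty
import Fermat.Agent.S24.Real.LaurentInfty

set_option autoImplicit false

noncomputable section

namespace Fermat.Agent.S20

open UpperHalfPlane Filter Function
open scoped Topology
open Fermat.Agent.S24

local notation "𝕢" => Periodic.qParam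

/-! ### Uniqueness of the order at `i∞` -/

theorem HasOrderAtInfty.not_lt {h : ℝ} (hh : 0 < h) {f : ℍ → ℂ} {k l : ℤ}
    (hk : HasOrderAtInfty h f k) (hl : HasOrderAtInfty h f l) : ¬ k < l := by
  intro hlt
  obtain ⟨u, hu, hu0, hfu⟩ := hk
  obtain ⟨v, hv, hv0, hfv⟩ := hl
  have hq : Tendsto (fun τ : ℍ => 𝕢 h τ) atImInfty (𝓝 0) := qParam_tendsto_atImInfty hh
  obtain ⟨r, hr⟩ : ∃ r : ℕ, l = k + (1 + r) := ⟨(l - k - 1).toNat, by omega⟩
  -- `u (q) = q * q ^ r * v q` eventually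
  have hev : ∀ᶠ τ : ℍ in atImInfty, u (𝕢 h τ) = (𝕢 h τ) * (𝕢 h τ) ^ r * v (𝕢 h τ) := by
    filter_upwards [hfu, hfv] with τ h1 h2
    have hqne : 𝕢 h τ ≠ 0 := Periodic.qParam_ne_zero _
    have hk0 : (𝕢 h τ) ^ k ≠ 0 := zpow_ne_zero _ hqne
    rw [h1, hr, zpow_add₀ hqne, zpow_add₀ hqne, zpow_one, zpow_natCast] at h2
    have : (𝕢 h τ) ^ k * u (𝕢 h τ) = (𝕢 h τ) ^ k * ((𝕢 h τ) * (𝕢 h τ) ^ r * v (𝕢 h τ)) := by
      rw [h2]; ring
    exact mul_left_cancel₀ hk0 this
  have h1 : Tendsto (fun τ : ℍ => u (𝕢 h τ)) atImInfty (𝓝 (u 0)) := hu.tendsto.comp hq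
  set Φ : ℂ → ℂ := fun q => q * q ^ r * v q with hΦ
  have hΦc : ContinuousAt Φ 0 := (continuousAt_id.mul (continuousAt_id.pow r)).mul hv
  have hΦ0 : Φ 0 = 0 := by simp [hΦ]
  have h2 : Tendsto (fun τ : ℍ => Φ (𝕢 h τ)) atImInfty (𝓝 0) := by
    have := hΦc.tendsto.comp hq
    rwa [hΦ0] at this
  have h3 : Tendsto (fun τ : ℍ => u (𝕢 h τ)) atImInfty (𝓝 0) :=
    h2.congr' (hev.mono fun τ hτ => hτ.symm)
  exact hu0 (tendsto_nhds_unique h1 h3)

/-- the order at `i∞` is unique. -/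
theorem HasOrderAtInfty.unique {h : ℝ} (hh : 0 < h) {f : ℍ → ℂ} {k l : ℤ}
    (hk : HasOrderAtInfty h f k) (hl : HasOrderAtInfty h f l) : k = l :=
  le_antisymm (_root_.not_lt.mp (hl.not_lt hh hk)) (_root_.not_lt.mp (hk.not_lt hh hl))

/-! ### From the Laurent expansion to the order -/

theorem br_order_ofPowerSeries {p : PowerSeries ℂ} {k : ℕ} (h : p.order = (k : ℕ∞)) :
    HahnSeries.ofPowerSeries ℤ ℂ p ≠ 0 ∧ (HahnSeries.ofPowerSeries ℤ ℂ p).order = (k : ℤ) := by
  obtain ⟨hk, hlt⟩ := PowerSeries.order_eq_nat.mp h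
  have hcoeff : ∀ n : ℕ, (HahnSeries.ofPowerSeries ℤ ℂ p).coeff (n : ℤ) = PowerSeries.coeff n p :=
    fun n => HahnSeries.ofPowerSeries_apply_coeff p n
  have hne : HahnSeries.ofPowerSeries ℤ ℂ p ≠ 0 := by
    intro h0
    have := hcoeff k
    rw [h0, HahnSeries.coeff_zero] at this
    exact hk this.symm
  refine ⟨hne, le_antisymm ?_ ?_⟩
  · exact HahnSeries.order_le_of_coeff_ne_zero (by rw [hcoeff]; exact hk)
  · rw [HahnSeries.le_order_iff_forall hne]
    intro j hj
    rcases lt_or_ge j 0 with hneg | hpos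
    · rw [HahnSeries.ofPowerSeries_apply]
      refine HahnSeries.embDomain_of_notMem_range ?_
      rintro ⟨n, rfl⟩
      exact absurd hneg (_root_.not_lt.mpr (Int.natCast_nonneg n))
    · obtain ⟨m, rfl⟩ := Int.eq_ofNat_of_zero_le hpos
      rw [hcoeff]
      exact hlt m (by exact_mod_cast hj)

/-- the order of the `q`-expansion is the analytic order of the cusp function at `0`. -/
theorem br_order_qExpansion {h : ℝ} {g : ℍ → ℂ} (hg : AnalyticAt ℂ (cuspFunction h g) 0) :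
    (qExpansion h g).order = analyticOrderAt (cuspFunction h g) 0 := by
  refine ENat.eq_of_forall_natCast_le_iff fun n => ?_
  rw [natCast_le_analyticOrderAt_iff_iteratedDeriv_eq_zero hg]
  constructor
  · intro hn i hi
    have h1 : PowerSeries.coeff i (qExpansion h g) = 0 :=
      PowerSeries.coeff_of_lt_order i (lt_of_lt_of_le (by exact_mod_cast hi) hn)
    rw [qExpansion_coeff, mul_eq_zero] at h1
    rcases h1 with h1 | h1
    · exact absurd h1 (inv_ne_zero (by exact_mod_cast i.factorial_ne_zero))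
    · exact h1
  · intro hn
    refine PowerSeries.nat_le_order _ n fun i hi => ?_
    rw [qExpansion_coeff, hn i hi, mul_zero]

/-- **Bridge**: a function meromorphic at `i∞` (layer (R)) with nonzero Laurent expansion has an
order at `i∞`, namely the order of its Laurent expansion. -/
theorem hasOrderAtInfty_of_isMeroAtInfty {h : ℕ} [NeZero h] {f : ℍ → ℂ} (hf : IsMeroAtInfty h f)
    (hne : laurentInfty h f ≠ 0) : HasOrderAtInfty (h : ℝ) f (laurentInfty h f).order := by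
  have hh : (0 : ℝ) < h := Nat.cast_pos.mpr (NeZero.pos h)
  obtain ⟨m, hm⟩ := hf.exists_isBddPer
  have hL := laurentInfty_eq' hm hf
  unfold laurentOf at hL
  set g : ℍ → ℂ := qpow h m * f with hg
  set P := qExpansion (h : ℝ) g with hP
  have hG : AnalyticAt ℂ (cuspFunction (h : ℝ) g) 0 := hm.analytic
  -- `P ≠ 0`
  have hP0 : P ≠ 0 := by
    intro h0
    rw [h0, map_zero, mul_zero] at hL
    exact hne hL
  obtain ⟨a, ha⟩ : ∃ a : ℕ, P.order = (a : ℕ∞) := by
    have : P.order ≠ ⊤ := fun htop => hP0 (PowerSeries.order_eq_top.mp htop)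
    exact ⟨P.order.toNat, (ENat.natCast_toNat this).symm⟩
  obtain ⟨hPne, hPord⟩ := br_order_ofPowerSeries ha
  -- the order of the Laurent series
  have hsingle : (HahnSeries.single (-(m : ℤ)) (1 : ℂ)) ≠ 0 := by
    simp
  have hord : (laurentInfty h f).order = (a : ℤ) - m := by
    rw [hL, HahnSeries.order_mul hsingle hPne, HahnSeries.order_single one_ne_zero, hPord]
    ring
  -- local normal form of the cusp function
  have hGa : analyticOrderAt (cuspFunction (h : ℝ) g) 0 = (a : ℕ∞) := by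
    rw [← br_order_qExpansion hG, ← hP, ha]
  obtain ⟨u, hu, hu0, hGu⟩ := (hG.analyticOrderAt_eq_natCast).mp hGa
  have hq : Tendsto (fun τ : ℍ => 𝕢 (h : ℝ) τ) atImInfty (𝓝 0) := qParam_tendsto_atImInfty hh
  refine ⟨u, hu.continuousAt, hu0, ?_⟩
  filter_upwards [hq.eventually hGu] with τ hτ
  have hqne : 𝕢 (h : ℝ) τ ≠ 0 := Periodic.qParam_ne_zero _
  have h1 : cuspFunction (h : ℝ) g (𝕢 (h : ℝ) τ) = g τ := eq_cuspFunction τ hh.ne' hm.periodic
  rw [h1, sub_zero, smul_eq_mul] at hτ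
  have h2 : g τ = (𝕢 (h : ℝ) τ) ^ m * f τ := by
    simp only [hg, Pi.mul_apply, qpow_apply]
  rw [h2] at hτ
  rw [hord, zpow_sub₀ hqne, zpow_natCast, zpow_natCast, div_mul_eq_mul_div, ← hτ]
  field_simp

end Fermat.Agent.S20
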