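import Mathlib
import Fermat.Agent.S20.Dict.Main
import Fermat.Agent.S20.RRDefs
import Fermat.Agent.S24.Real.EmbFinite
import Fermat.Agent.S24.Real.EmbInfty
import Fermat.Agent.S24.Real.Degree
import Fermat.Agent.S24.FF.DiffOrdFF
import Fermat.Agent.S24.LocalLemmaLaurent

set_option autoImplicit false

/-!
# S20, modular dictionary: places of the function field from expansion embeddings

Shared lemmas for the instantiation of `DictHyp` at `F = FL ℂ N`:
* a ring embedding `E : F →+* ℂ((t))` which is the identity on constants and has a nontrivial order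
  function induces a place `v` of `F` with `ord (E f) = m * v.ord f`;
* the order of `dx` at that place from the order of `E (x - c)`;
* the value of the expansion embeddings on polynomials in the generators.
-/

namespace Fermat.Agent.S20

open UpperHalfPlane ModularForm Filter AlgebraicCurve CongruenceSubgroup ModularCurve
open Fermat.Agent.S24 Fermat.Agent.S24.FF Fermat.Agent.S24.LocalLemma
open scoped Manifold MatrixGroups Topology

noncomputable section

section General

variable {F : Type*} [Field F] [Algebra ℂ F]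

/-- A ring hom into Laurent series which is the identity on constants, as an algebra hom. -/
def algHomOfEmb (E : F →+* LaurentSeries ℂ)
    (hE : ∀ c : ℂ, E (algebraMap ℂ F c) = HahnSeries.C c) : F →ₐ[ℂ] LaurentSeries ℂ where
  toRingHom := E
  commutes' c := by
    show E (algebraMap ℂ F c) = algebraMap ℂ (LaurentSeries ℂ) c
    rw [hE, algebraMap_laurentSeries_eq_single, HahnSeries.C_apply]

@[simp] theorem algHomOfEmb_apply (E : F →+* LaurentSeries ℂ)
    (hE : ∀ c : ℂ, E (algebraMap ℂ F c) = HahnSeries.C c) (f : F) :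
    algHomOfEmb E hE f = E f := rfl

/-- The place induced by an expansion embedding. -/
theorem exists_place_of_emb (E : F →+* LaurentSeries ℂ)
    (hE : ∀ c : ℂ, E (algebraMap ℂ F c) = HahnSeries.C c)
    (hnt : ∃ f : F, f ≠ 0 ∧ (E f).order ≠ 0) :
    ∃ (v : Place ℂ F) (m : ℤ), 0 < m ∧ ∀ f : F, f ≠ 0 → (E f).order = m * v.ord f := by
  have hnt' : ∃ f : F, f ≠ 0 ∧ (laurentLeadData ℂ ℂ).ord (algHomOfEmb E hE f) ≠ 0 := hnt
  obtain ⟨m, hm, h⟩ := exists_ord_eq_mul (laurentLeadData ℂ ℂ) (algHomOfEmb E hE) hnt'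
  exact ⟨inducedPlace (laurentLeadData ℂ ℂ) (algHomOfEmb E hE) hnt', m, hm, h⟩

/-- The order of `dx` at a place, from the order of `x - c` (with respect to a multiple of the
order function of the place). -/
theorem mul_Wdx_of_order_sub_const (hF : IsFF1 ℂ F) (v : Place ℂ F) {m : ℤ} (hm : 0 < m)
    (ordE : F → ℤ) (hord : ∀ f : F, f ≠ 0 → ordE f = m * v.ord f) (x : F) (c : ℂ) {k : ℤ}
    (hk : k ≠ 0) (hx : ordE (x - algebraMap ℂ F c) = k) (hne : x - algebraMap ℂ F c ≠ 0) :
    m * Wdx ℂ x v = k - m := by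
  have h1 : m * v.ord (x - algebraMap ℂ F c) = k := by rw [← hord _ hne, hx]
  have h2 : v.ord (x - algebraMap ℂ F c) ≠ 0 := by
    intro h0
    rw [h0, mul_zero] at h1
    exact hk h1.symm
  show m * v.ordDifferential (KaehlerDifferential.D ℂ F x) = k - m
  rw [ordDifferential_D_sub_const hF v c h2, mul_sub, h1, mul_one]

theorem mul_Wdx_of_order (hF : IsFF1 ℂ F) (v : Place ℂ F) {m : ℤ} (hm : 0 < m)
    (ordE : F → ℤ) (hord : ∀ f : F, f ≠ 0 → ordE f = m * v.ord f) (x : F) {k : ℤ}
    (hk : k ≠ 0) (hx : ordE x = k) (hne : x ≠ 0) :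
    m * Wdx ℂ x v = k - m := by
  have := mul_Wdx_of_order_sub_const hF v hm ordE hord x 0 hk (by simpa using hx) (by simpa using hne)
  exact this

end General

section FLC

variable (N : ℕ) [NeZero N]

/-- `F_ℂ` is a function field in one variable over `ℂ`. -/
theorem isFF1_FL : IsFF1 ℂ (FL ℂ N) :=
  ⟨xGen ℂ N, xGen_transcendental ℂ N, finiteDimensional_over_xGen ℂ N (RingHom.id ℂ)⟩

theorem coe_aeval_genFL (P : MvPolynomial (Gen N) ℂ) :
    ((MvPolynomial.aeval (genFL ℂ N) P : FL ℂ N) : LaurentSeries ℂ) =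
      MvPolynomial.aeval (fun d : Gen N => jqBar ℂ d.1) P :=
  MvPolynomial.comp_aeval_apply (R := ℂ) (genFL ℂ N)
    (laurentBaseChange ℂ (modularFunctionFieldFull N)).val P

/-- the value of an abstract expansion embedding on a polynomial in the generators. -/
theorem embOf_aeval_genFL {A : Subalgebra ℂ (ℍ → ℂ)} {E : A →ₐ[ℂ] LaurentSeries ℂ}
    (hE : Function.Injective E) (g : Gen N → A)
    (hdict : IsDict (RingHom.id ℂ) (fun d => ((g d : A) : ℍ → ℂ))) (P : MvPolynomial (Gen N) ℂ) :
    embOf hE g hdict (MvPolynomial.aeval (genFL ℂ N) P) = E (polyFun (RingHom.id ℂ) A g P) := by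
  have hmem : MvPolynomial.aeval (fun d : Gen N => jqBar ℂ d.1) P ∈
      laurentBaseChange ℂ (modularFunctionFieldFull N) := by
    rw [← coe_aeval_genFL]
    exact (MvPolynomial.aeval (genFL ℂ N) P).2
  have h2 : MvPolynomial.aeval (genFL ℂ N) P =
      ⟨MvPolynomial.aeval (fun d : Gen N => jqBar ℂ d.1) P, hmem⟩ :=
    Subtype.ext (coe_aeval_genFL N P)
  rw [h2, embOf_aeval, polyExp_apply]

theorem coe_polyFun_id {A : Subalgebra ℂ (ℍ → ℂ)} (g : Gen N → A) (P : MvPolynomial (Gen N) ℂ) :
    ((polyFun (RingHom.id ℂ) A g P : A) : ℍ → ℂ) =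
      evalFn (fun d => ((g d : A) : ℍ → ℂ)) P := by
  funext τ
  rw [polyFun_apply, evalFn_apply, MvPolynomial.eval₂_id]

/-- polynomial expressions in translates of the `Jd d`. -/
theorem evalFn_Jd_smul (P : MvPolynomial (Gen N) ℂ) (a : SL(2, ℤ)) :
    evalFn (fun (d : Gen N) (τ : ℍ) => Jd d.1 (a • τ)) P =
      fun τ => evalFn (fun d : Gen N => Jd d.1) P (a • τ) := by
  funext τ
  rfl

/-- the Taylor embedding on polynomials in the generators. -/
theorem embFinite_aeval_genFL (τ₀ : ℍ) (a : SL(2, ℤ)) (P : MvPolynomial (Gen N) ℂ) :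
    embFinite ℂ N (RingHom.id ℂ) τ₀ a (MvPolynomial.aeval (genFL ℂ N) P) =
      taylorL τ₀ (fun τ => evalFn (fun d : Gen N => Jd d.1) P (a⁻¹ • τ)) := by
  rw [embFinite, embJ, embOf_aeval_genFL, taylorAlgHom_apply, coe_polyFun_id]
  rfl

/-- the Laurent embedding at `i∞` on polynomials in the generators. -/
theorem embInfty_aeval_genFL (a : SL(2, ℤ)) (P : MvPolynomial (Gen N) ℂ) :
    embInfty ℂ N (RingHom.id ℂ) a (MvPolynomial.aeval (genFL ℂ N) P) =
      laurentInfty N (fun τ => evalFn (fun d : Gen N => Jd d.1) P (a⁻¹ • τ)) := by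
  rw [embInfty, embJ, embOf_aeval_genFL, laurentInftyAlgHom_apply, coe_polyFun_id]
  rfl

end FLC

end

end Fermat.Agent.S20
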