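import Mathlib
import Fermat.Agent.S20.Dict.Main
import Fermat.Agent.S20.Dict.Jprime
import Fermat.Agent.S20.Dict.Place

set_option autoImplicit false

/-!
# S20, modular dictionary: the instance `F = FL ℂ N`

The fields of `DictHyp` which do not involve places, and the contract item [C3]
(an injective linear map `L(div dx) → S₂(Γ₀(N))`) from the two local fields `fin` and `inf`.
-/

namespace Fermat.Agent.S20

open UpperHalfPlane ModularForm Filter AlgebraicCurve CongruenceSubgroup ModularCurve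
open Fermat.Agent.S24 Fermat.Agent.S24.FF
open scoped Manifold MatrixGroups Topology

noncomputable section

variable (N : ℕ) [NeZero N]

/-- the analytic realisations of the generators. -/
abbrev fnJd (d : Gen N) : ℍ → ℂ := Jd d.1

theorem fnJd_apply (d : Gen N) (τ : ℍ) : fnJd N d τ = Jd d.1 τ := rfl

theorem fnJd_mdiff (d : Gen N) : MDiff (fnJd N d) := Jd_mdiff d.1

theorem fnJd_inv (d : Gen N) (γ : SL(2, ℤ)) (hγ : γ ∈ Gamma0 N) (τ : ℍ) :
    fnJd N d (γ • τ) = fnJd N d τ :=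
  Jd_smul_of_mem_Gamma0 (Nat.dvd_of_mem_divisors d.2) hγ τ

/-- every element of `F_ℂ` is a quotient of polynomials in the generators. -/
theorem span_genFL (h : FL ℂ N) : ∃ P Q : MvPolynomial (Gen N) ℂ,
    MvPolynomial.aeval (genFL ℂ N) Q ≠ 0 ∧
      h * MvPolynomial.aeval (genFL ℂ N) Q = MvPolynomial.aeval (genFL ℂ N) P := by
  have hmem : (h : LaurentSeries ℂ) ∈
      IntermediateField.adjoin ℂ (Set.range fun d : Gen N => jqBar ℂ d.1) := by
    rw [← laurentBaseChange_eq_adjoin ℂ N]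
    exact h.2
  rw [IntermediateField.mem_adjoin_range_iff] at hmem
  obtain ⟨r, s, hrs⟩ := hmem
  by_cases hs : MvPolynomial.aeval (fun d : Gen N => jqBar ℂ d.1) s = 0
  · refine ⟨0, 1, ?_, ?_⟩
    · rw [map_one]
      exact one_ne_zero
    · rw [map_one, map_zero, mul_one]
      apply Subtype.ext
      rw [hrs, hs, div_zero]
      rfl
  · refine ⟨r, s, ?_, ?_⟩
    · intro h0
      apply hs
      rw [← coe_aeval_genFL, h0]
      rfl
    · apply Subtype.ext
      show (h : LaurentSeries ℂ) * ((MvPolynomial.aeval (genFL ℂ N) s : FL ℂ N) : LaurentSeries ℂ) =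
        ((MvPolynomial.aeval (genFL ℂ N) r : FL ℂ N) : LaurentSeries ℂ)
      rw [coe_aeval_genFL, coe_aeval_genFL, hrs, div_mul_cancel₀ _ hs]

/-- the `q`-dictionary in the `evalFn` form. -/
theorem dict_genFL (P : MvPolynomial (Gen N) ℂ) :
    MvPolynomial.aeval (genFL ℂ N) P = 0 ↔ evalFn (fnJd N) P = 0 := by
  have h1 : MvPolynomial.aeval (genFL ℂ N) P = 0 ↔
      MvPolynomial.aeval (fun d : Gen N => jqBar ℂ d.1) P = 0 := by
    rw [← coe_aeval_genFL]
    constructor
    · intro h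
      rw [h]
      rfl
    · intro h
      exact Subtype.ext h
  rw [h1, isDict_Jd ℂ N (RingHom.id ℂ) P]
  constructor
  · intro h
    funext τ
    rw [evalFn_apply, ← MvPolynomial.eval₂_id]
    exact h τ
  · intro h τ
    rw [MvPolynomial.eval₂_id]
    exact congrFun h τ

/-- The dictionary hypotheses for `F_ℂ`, from the two local statements. -/
theorem dictHyp_FL
    (hfin : ∀ τ₀ : ℍ, ∃ (v : Place ℂ (FL ℂ N)) (m : ℤ) (kj : ℕ), 0 < m ∧
      analyticOrderAt (jPrime ∘ ofComplex) (τ₀ : ℂ) = kj ∧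
      (kj : ℤ) + 1 - m = m * Wdx ℂ (xGen ℂ N) v ∧
      ∀ P : MvPolynomial (Gen N) ℂ, MvPolynomial.aeval (genFL ℂ N) P ≠ 0 →
        ∃ k : ℕ, analyticOrderAt (evalFn (fnJd N) P ∘ ofComplex) (τ₀ : ℂ) = k ∧
          (k : ℤ) = m * v.ord (MvPolynomial.aeval (genFL ℂ N) P))
    (hinf : ∀ a : SL(2, ℤ), ∃ (v : Place ℂ (FL ℂ N)) (m kj : ℤ), 0 < m ∧
      HasOrderAtInfty (N : ℝ) jPrime kj ∧ kj - m = m * Wdx ℂ (xGen ℂ N) v ∧
      ∀ P : MvPolynomial (Gen N) ℂ, MvPolynomial.aeval (genFL ℂ N) P ≠ 0 →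
        HasOrderAtInfty (N : ℝ) (fun τ => evalFn (fnJd N) P (a • τ))
          (m * v.ord (MvPolynomial.aeval (genFL ℂ N) P))) :
    DictHyp N (genFL ℂ N) (fnJd N) jPrime (Wdx ℂ (xGen ℂ N)) where
  fn_mdiff := fnJd_mdiff N
  fn_inv := fnJd_inv N
  span := span_genFL N
  dict := dict_genFL N
  jp_mdiff := jPrime_mdiff
  jp_slash := jPrime_slash
  fin := hfin
  inf := hinf

/-- Contract item [C3] from the dictionary hypotheses. -/
theorem exists_injective_RRSpace_of_dictHyp
    (H : DictHyp N (genFL ℂ N) (fnJd N) jPrime (Wdx ℂ (xGen ℂ N))) :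
    ∃ φ : ↥(RRSpace (Wdx ℂ (xGen ℂ N))) →ₗ[ℂ] CuspForm (Gamma0 N) 2, Function.Injective φ := by
  refine exists_injective_linearMap_cuspForm H (RRSpace (Wdx ℂ (xGen ℂ N))) ?_
  intro h hh h0 v
  rcases mem_RRSpace.mp hh with h1 | h1
  · exact absurd h1 h0
  · have := h1 v
    omega

end

end Fermat.Agent.S20
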