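import Mathlib
import Fermat.Agent.S20.Dict.Main
import Fermat.Agent.S20.Dict.Jprime
import Fermat.Agent.S20.Dict.Place
import Fermat.Agent.S20.Dict.Bridge
import Fermat.Agent.S20.Dict.Instance
import Fermat.Agent.S20.RRDefs
import Fermat.Agent.S24.Final
import Fermat.Agent.S24.Real.EmbInfty
import Fermat.Agent.S24.Real.Degree
import Fermat.Agent.S24.FF.DiffOrdFF
import Fermat.Agent.S24.LocalLemmaLaurent

set_option autoImplicit false

/-!
# S20, modular dictionary: the field `inf` of `DictHyp` (behaviour at the cusps)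

For `a ∈ SL(2,ℤ)` the Laurent expansion embedding at `i∞` attached to `a⁻¹` induces a place `v` of
`F = ℂ(j(q^d) : d ∣ N)`; the order at `i∞` (in `q_N`) of `τ ↦ P(J_d(a τ))` is `m · v(P(j_d))`.
-/

open UpperHalfPlane ModularCurve CongruenceSubgroup AlgebraicCurve
open scoped MatrixGroups Manifold

noncomputable section

namespace Fermat.Agent.S20

open Fermat.Agent.S24 Fermat.Agent.S24.LocalLemma

section Family

variable {L : Type} [Field L] [Algebra ℚ L] {N : ℕ} [NeZero N]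
variable {ι : L →+* ℂ} {A : Subalgebra ℂ (ℍ → ℂ)} {E : A →ₐ[ℂ] LaurentSeries ℂ}
variable (hE : Function.Injective E) (hdict : IsDict ι (fun d : Gen N => Jd d.1))
  (hA : ∀ (a : SL(2, ℤ)) (d : Gen N), (fun τ : ℍ => Jd d.1 (a⁻¹ • τ)) ∈ A)

/-- the expansion embedding on polynomials in the generators. -/
theorem embJ_aeval_genFL (a : SL(2, ℤ)) (P : MvPolynomial (Gen N) L) :
    embJ hE hdict hA a (MvPolynomial.aeval (genFL L N) P) = polyExp ι A E (genJ hA a) P := by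
  have h : (embJ hE hdict hA a).comp (MvPolynomial.aeval (genFL L N)).toRingHom =
      polyExp ι A E (genJ hA a) := by
    apply MvPolynomial.ringHom_ext
    · intro c
      rw [RingHom.comp_apply, polyExp_C]
      show embJ hE hdict hA a (MvPolynomial.aeval (genFL L N) (MvPolynomial.C c)) = _
      rw [MvPolynomial.aeval_C, embJ_algebraMap]
    · intro d
      rw [RingHom.comp_apply, polyExp_X]
      show embJ hE hdict hA a (MvPolynomial.aeval (genFL L N) (MvPolynomial.X d)) = _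
      rw [MvPolynomial.aeval_X, embJ_gen]
  exact congrArg (fun f => f P) h

end Family

section Infty

variable (N : ℕ) [NeZero N]

/-- the function `τ ↦ P(J_d(a⁻¹ τ))` is meromorphic at `i∞` and the embedding at `i∞` computes its
Laurent expansion. -/
theorem isMeroAtInfty_evalFn_Jd_smul (a : SL(2, ℤ)) (P : MvPolynomial (Gen N) ℂ) :
    IsMeroAtInfty N (fun τ : ℍ => evalFn (fun d : Gen N => Jd d.1) P (a⁻¹ • τ)) ∧
    embInfty ℂ N (RingHom.id ℂ) a (MvPolynomial.aeval (genFL ℂ N) P) =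
      laurentInfty N (fun τ : ℍ => evalFn (fun d : Gen N => Jd d.1) P (a⁻¹ • τ)) := by
  have hA : ∀ (a : SL(2, ℤ)) (d : Gen N), (fun τ : ℍ => Jd d.1 (a⁻¹ • τ)) ∈ meroSubalgebra N :=
    fun a d => isMeroAtInfty_Jd_smul (Nat.dvd_of_mem_divisors d.2) a⁻¹
  have h1 := embJ_aeval_genFL (laurentInftyAlgHom_injective N) (isDict_Jd ℂ N (RingHom.id ℂ)) hA a P
  have hfun : ((polyFun (RingHom.id ℂ) (meroSubalgebra N) (genJ hA a) P : meroSubalgebra N) :
      ℍ → ℂ) = fun τ : ℍ => evalFn (fun d : Gen N => Jd d.1) P (a⁻¹ • τ) := by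
    funext τ
    rw [polyFun_apply]
    rfl
  refine ⟨?_, ?_⟩
  · rw [← hfun]
    exact (polyFun (RingHom.id ℂ) (meroSubalgebra N) (genJ hA a) P).2
  · show embJ (laurentInftyAlgHom_injective N) (isDict_Jd ℂ N (RingHom.id ℂ)) hA a _ = _
    rw [h1, polyExp_apply, laurentInftyAlgHom_apply, hfun]

/-- **The field `inf` of `DictHyp`**, given the bridge between `laurentInfty` and
`HasOrderAtInfty`. -/
theorem inf_FL_of_bridge
    (hBR : ∀ f : ℍ → ℂ, IsMeroAtInfty N f → laurentInfty N f ≠ 0 →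
      HasOrderAtInfty (N : ℝ) f (laurentInfty N f).order)
    (a : SL(2, ℤ)) :
    ∃ (v : Place ℂ (FL ℂ N)) (m kj : ℤ), 0 < m ∧ HasOrderAtInfty (N : ℝ) jPrime kj ∧
      kj - m = m * Wdx ℂ (xGen ℂ N) v ∧
      ∀ P : MvPolynomial (Gen N) ℂ, MvPolynomial.aeval (genFL ℂ N) P ≠ 0 →
        HasOrderAtInfty (N : ℝ) (fun τ => evalFn (fun d : Gen N => Jd d.1) P (a • τ))
          (m * v.ord (MvPolynomial.aeval (genFL ℂ N) P)) := by
  -- the embedding as an algebra hom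
  set e : FL ℂ N →+* LaurentSeries ℂ := embInfty ℂ N (RingHom.id ℂ) a⁻¹ with he
  have hec : ∀ c : ℂ, e (algebraMap ℂ (FL ℂ N) c) = HahnSeries.C (algebraMap ℂ ℂ c) := fun c =>
    embInfty_algebraMap ℂ N (RingHom.id ℂ) a⁻¹ c
  set φ : FL ℂ N →ₐ[ℂ] LaurentSeries ℂ := algHomOfRingHom (K := ℂ) e hec with hφ
  have hφe : ∀ f, φ f = e f := fun f => rfl
  have hN0 : (N : ℤ) ≠ 0 := by exact_mod_cast NeZero.ne N
  -- the order of the image of `x`
  have hx : (φ (xGen ℂ N)).order = -(N : ℤ) := by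
    rw [hφe, he, embInfty_xGen]
    exact order_qExpand_jqC N
  have hx0 : xGen ℂ N ≠ 0 := by
    intro h0
    rw [h0, map_zero, HahnSeries.order_zero] at hx
    omega
  have hnt : ∃ f : FL ℂ N, f ≠ 0 ∧ (laurentLeadData ℂ ℂ).ord (φ f) ≠ 0 := by
    refine ⟨xGen ℂ N, hx0, ?_⟩
    rw [laurentLeadData_ord, hx]
    omega
  obtain ⟨m, hm, hord⟩ := exists_ord_eq_mul (laurentLeadData ℂ ℂ) φ hnt
  set v : Place ℂ (FL ℂ N) := inducedPlace (laurentLeadData ℂ ℂ) φ hnt with hv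
  have hvx : m * v.ord (xGen ℂ N) = -(N : ℤ) := by
    rw [← hord _ hx0, laurentLeadData_ord, hx]
  have hvx0 : v.ord (xGen ℂ N) ≠ 0 := by
    intro h0
    rw [h0, mul_zero] at hvx
    omega
  refine ⟨v, m, -(N : ℤ), hm, hasOrderAtInfty_jPrime (NeZero.ne N), ?_, ?_⟩
  · rw [Wdx, FF.ordDifferential_D (isFF1_FL N) v hvx0, mul_sub, hvx, mul_one]
  · intro P hP
    obtain ⟨hmero, hexp⟩ := isMeroAtInfty_evalFn_Jd_smul N a⁻¹ P
    rw [inv_inv] at hmero hexp
    have hne : laurentInfty N (fun τ : ℍ => evalFn (fun d : Gen N => Jd d.1) P (a • τ)) ≠ 0 := by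
      rw [← hexp]
      exact phi_ne_zero φ hP
    have h1 := hBR _ hmero hne
    rw [← hexp] at h1
    have h2 := hord _ hP
    rw [laurentLeadData_ord, hφe] at h2
    rw [← h2]
    exact h1

/-- **The field `inf` of `DictHyp`** for `F_ℂ` (target shape of `dictHyp_FL`). -/
theorem inf_FL : ∀ a : SL(2, ℤ), ∃ (v : Place ℂ (FL ℂ N)) (m kj : ℤ), 0 < m ∧
    HasOrderAtInfty (N : ℝ) jPrime kj ∧ kj - m = m * Wdx ℂ (xGen ℂ N) v ∧
    ∀ P : MvPolynomial (Gen N) ℂ, MvPolynomial.aeval (genFL ℂ N) P ≠ 0 →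
      HasOrderAtInfty (N : ℝ) (fun τ => evalFn (fnJd N) P (a • τ))
        (m * v.ord (MvPolynomial.aeval (genFL ℂ N) P)) :=
  inf_FL_of_bridge N (fun _ hf hne => hasOrderAtInfty_of_isMeroAtInfty hf hne)

/-- The dictionary hypotheses for `F_ℂ` from the finite local statement alone. -/
theorem dictHyp_FL_of_fin
    (hfin : ∀ τ₀ : ℍ, ∃ (v : Place ℂ (FL ℂ N)) (m : ℤ) (kj : ℕ), 0 < m ∧
      analyticOrderAt (jPrime ∘ ofComplex) (τ₀ : ℂ) = kj ∧
      (kj : ℤ) + 1 - m = m * Wdx ℂ (xGen ℂ N) v ∧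
      ∀ P : MvPolynomial (Gen N) ℂ, MvPolynomial.aeval (genFL ℂ N) P ≠ 0 →
        ∃ k : ℕ, analyticOrderAt (evalFn (fnJd N) P ∘ ofComplex) (τ₀ : ℂ) = k ∧
          (k : ℤ) = m * v.ord (MvPolynomial.aeval (genFL ℂ N) P)) :
    DictHyp N (genFL ℂ N) (fnJd N) jPrime (Wdx ℂ (xGen ℂ N)) :=
  dictHyp_FL N hfin (inf_FL N)

end Infty

end Fermat.Agent.S20
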